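/-
Row 37 (S43), block G1 (architect helper225).  CONTRACT: the exact statements of all nodes.

GOAL (`NodeCore`): level `M`, `A | q`, `q ∤ M` (good reduction).  If `t ∈ ℤ⟨T_ℓ⟩` is `0` in the Hecke
algebra of `S₂(Γ₀(M))`, and `u ∈ FN M` reduces (Gauss valuation of the `q`-expansion) to `ū ∈ k(X₀(M))`
with `n ∣ ord_v ū` at ALL places `v` of `k(X₀(M))`, then `t² u ≡ const · fⁿ` for some `f ∈ FN M`:
"`t²` kills `Pic⁰(k(X₀(M)))[n]`" (substitute for smooth and proper base change).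

DAG.
  NodeCore  ⇐ NodeKill + NodeForm + NodeHeckeRed + RedConst (landed: S37) + compatibilities C1, C2
  NodeKill  ⇐ NodeTors + NodeKillSq          (`t²` kills ALL of `J₀(M)(ℚ̄)`)
  NodeKillSq ⇐ NodeAbs + NodeNorthcott + landed S17 (heights, divisibility, open stabilisers) + C3
  NodeTors  ⇐ NodeBetti + NodeMult + NodeKum
  NodeForm  = tube formula `∑_{P ↦ x} ord_P u = ord_{v_x} ū` (ALSO gives: `u ≡ const ⇒ redDiv (div u) = 0`)
-/
import Fermat.Agent.S43.G1.Defs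
import Fermat.Agent.S17.Top.Main
import Fermat.Agent.GAL.Mult.Statement

set_option autoImplicit false

noncomputable section

namespace Fermat.Agent.S43.G1

open AlgebraicCurve ModularCurve Fermat.Agent.S24 Fermat.Agent.GAL
open Fermat.Agent.S37 (red redDiv X Pl GoodBase)
open Fermat.Agent.S37.HeckeInputs (heckeDiv)
open Fermat.Agent.S18.Glue (divOf)
open Fermat.Agent.S16.Lift (homPE)
open Fermat.Agent.Lib.HeckeHom (actMod polyHom tOf)
open Fermat.Agent.S44 (Fk kA IsRed)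

/-! ## Block A: heights -/

/-- **A1** (abstract; Mathlib + `S17/Tools/QuasiQuad`).  A point `w` which is divisible by every
`n + 1` inside a set `T` satisfying Northcott for `eta` is a torsion point. -/
def NodeAbs : Prop :=
  ∀ (G : Type) [AddCommGroup G] (f eta : G → ℝ) (Z : Finset G) (C : ℝ),
    (∀ x y z, |S17.cubeDefect f x y z| ≤ C) → (∀ z, 0 ≤ eta z) →
    (∀ z, ∃ a ∈ Z, eta z - C ≤ f (z - a)) →
    ∀ T : Set G, (∀ B : ℝ, {z | z ∈ T ∧ eta z ≤ B}.Finite) →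
    ∀ (w : G) (y : ℕ → G), (∀ n, y n ∈ T) → (∀ n, (n + 1) • y n = w) →
      ∃ m : ℕ, 0 < m ∧ m • w = 0

/-- **A2**: Northcott for `eta` on the classes fixed by `Gal(ℚ̄/L)`, `L` a number field
(generalises `S17.NG.finite_eta_le`, which is the case `L = ℚ`). -/
def NodeNorthcott : Prop :=
  ∀ (N : ℕ) [NeZero N] (H : S17.TP.HeightFn S17.Qb) (_ : S17.IsArith H)
    (o : S17.HtOut H (S17.W.cusp N)) (L : IntermediateField ℚ S17.Qb) [FiniteDimensional ℚ L]
    (B : ℝ),
    {z : JZero N | (∀ σ : S17.GQ, (∀ x ∈ L, σ x = x) → σ • z = z) ∧ o.eta z ≤ B}.Finite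

/-- **A3**: a Hecke word killing all torsion points has square killing everything. -/
def NodeKillSq : Prop :=
  ∀ (M : ℕ) [NeZero M] (S : Set ℕ) (t : HA),
    (∀ n : ℕ, 0 < n → ∀ x : JZero M, n • x = 0 → act (opJ M S) t x = 0) →
      ∀ x : JZero M, act (opJ M S) (t * t) x = 0

/-! ## Block C: compatibilities of the operators -/

/-- **C1**: `div (T_ℓ u) = T_ℓ (div u)`. -/
def NodeC1 : Prop :=
  ∀ (M : ℕ) [NeZero M] (S : Set ℕ) (ℓ : ℕ) (u : Additive (FN M)ˣ),
    dv M (opF M S ℓ u) = opD M S ℓ (dv M u)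

/-- **C2**: `[T_ℓ D] = T_ℓ [D]`. -/
def NodeC2 : Prop :=
  ∀ (M : ℕ) [NeZero M] (S : Set ℕ) (ℓ : ℕ) (D : Div0 M),
    (Pic0.mk ⟨opD M S ℓ D, opD_mem_degZero M S ℓ D D.2⟩ : JZero M) = opJ M S ℓ (Pic0.mk D)

/-- **C3**: Galois equivariance. -/
def NodeC3 : Prop :=
  ∀ (M : ℕ) [NeZero M] (S : Set ℕ) (ℓ : ℕ) (σ : E.GQ) (x : JZero M),
    opJ M S ℓ (σ • x) = σ • opJ M S ℓ x

/-! ## Block B: torsion -/

/-- **B1**: a word which is `0` in the Hecke algebra of cusp forms kills Betti cohomology mod `n`. -/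
def NodeBetti : Prop :=
  ∀ (M : ℕ) [NeZero M] (S : Set ℕ) (t : HA), polyHom M S (ab t) = 0 →
    ∀ (n : ℕ) (ψ : homPE M (ZMod n)), act (opH M S n) t ψ = 0

/-- **B2**: the multiplier isomorphism intertwines `opW` and `opH`. -/
def NodeMult : Prop :=
  ∀ (M : ℕ) [NeZero M] (S : Set ℕ) (n : ℕ), 0 < n →
    ∃ mult : E.W M n ≃+ homPE M (ZMod n), ∀ (ℓ : ℕ) (x : E.W M n),
      mult (opW M S n ℓ x) = opH M S n ℓ (mult x)

/-- **B3**: a word killing the Kummer model `W n` kills `J[n]`. -/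
def NodeKum : Prop :=
  ∀ (M : ℕ) [NeZero M] (S : Set ℕ) (t : HA) (n : ℕ), 0 < n →
    (∀ w : E.W M n, act (opW M S n) t w = 0) →
      ∀ x : JZero M, n • x = 0 → act (opJ M S) t x = 0

/-- **B**: a word which is `0` in the Hecke algebra of cusp forms kills all torsion points. -/
def NodeTors : Prop :=
  ∀ (M : ℕ) [NeZero M] (S : Set ℕ) (t : HA), polyHom M S (ab t) = 0 →
    ∀ n : ℕ, 0 < n → ∀ x : JZero M, n • x = 0 → act (opJ M S) t x = 0

/-- **A + B**. -/
def NodeKill : Prop :=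
  ∀ (M : ℕ) [NeZero M] (S : Set ℕ) (t : HA), polyHom M S (ab t) = 0 →
    ∀ x : JZero M, act (opJ M S) (t * t) x = 0

/-! ## Block R: reduction (language of S37: `red A M P`, `redDiv A M D`) -/

/-- **R1**: the reduction of `T_ℓ P` depends only on the reduction of `P` (any `A`, any `ℓ`). -/
def NodeHeckeRed : Prop :=
  ∀ (A : ValuationSubring Kbar) (M : ℕ) [NeZero M] (ℓ : ℕ) [NeZero ℓ] (P P' : Pl M),
    red A M P = red A M P' →
      redDiv A M (heckeDiv M ℓ (Finsupp.single P 1)) =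
        redDiv A M (heckeDiv M ℓ (Finsupp.single P' 1))

/-- **R2**: the kernel of `redDiv` is stable under the Hecke operators. -/
def NodeKerStable : Prop :=
  ∀ (A : ValuationSubring Kbar) (M : ℕ) [NeZero M] (S : Set ℕ) (ℓ : ℕ)
    (D : Divisor Kbar (FN M)), redDiv A M D = 0 → redDiv A M (opD M S ℓ D) = 0

/-- **FORM** (tube formula; good reduction): to the reduction `x = red P` of a place is attached a
place `v` of `k(X₀(M))` such that `∑_{P' ↦ x} ord_{P'} u = ord_v ū` for all `u` with reduction `ū`. -/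
def NodeForm : Prop :=
  ∀ (A : ValuationSubring Kbar) (M : ℕ) [NeZero M] (q : ℕ), q.Prime → A.LiesOverPrime q →
    ¬ q ∣ M → GoodBase M q → ∀ P : Pl M, ∃ v : Place (kA A) (Fk A M),
      ∀ (u : FN M) (ubar : Fk A M), u ≠ 0 → IsRed A u (ubar : LaurentSeries (kA A)) →
        redDiv A M (divOf Kbar u) (red A M P) = v.ord ubar

/-- **RC** (landed in S37 for good bases; restated with `Cong1`). -/
def NodeRedConst : Prop :=
  ∀ (A : ValuationSubring Kbar) (M : ℕ) [NeZero M] (q : ℕ), q.Prime → A.LiesOverPrime q →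
    ¬ q ∣ M → GoodBase M q → ∀ g : FN M, g ≠ 0 → redDiv A M (divOf Kbar g) = 0 → Cong1 M A g

/-! ## The deliverables -/

/-- **CORE**. -/
def NodeCore : Prop :=
  ∀ (A : ValuationSubring Kbar) (M : ℕ) [NeZero M] (q : ℕ), q.Prime → A.LiesOverPrime q →
    ¬ q ∣ M → GoodBase M q → ∀ (S : Set ℕ) (t : HA), polyHom M S (ab t) = 0 →
    ∀ (n : ℕ), 0 < n → ∀ (u : (FN M)ˣ) (ubar : Fk A M),
      IsRed A (u : FN M) (ubar : LaurentSeries (kA A)) →
      (∀ v : Place (kA A) (Fk A M), (n : ℤ) ∣ v.ord ubar) →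
      ∃ f : (FN M)ˣ, Cong1 M A
        (((Additive.toMul (act (opF M S) (t * t) (Additive.ofMul u)) : (FN M)ˣ) : FN M) / (f : FN M) ^ n)

/-- **K1** (by-product, wanted by design B of E0): a function `≡ const` has a divisor reducing
to `0`. -/
def NodeK1 : Prop :=
  ∀ (A : ValuationSubring Kbar) (M : ℕ) [NeZero M] (q : ℕ), q.Prime → A.LiesOverPrime q →
    ¬ q ∣ M → GoodBase M q → ∀ g : FN M, g ≠ 0 → Cong1 M A g → redDiv A M (divOf Kbar g) = 0

end Fermat.Agent.S43.G1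

end
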