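/-
Row 37 (S43), block G1, node A1 (`NodeAbs`), helper11.
A point which is divisible by every `n + 1` inside a set satisfying Northcott is a torsion point.
-/
import Fermat.Agent.S43.G1.Contract
import Fermat.Agent.S17.Tools.AbstractNorthcott

set_option autoImplicit false

namespace Fermat.Agent.S43.G1

open Fermat.Agent.S17

theorem nodeAbs : NodeAbs := by
  intro G _ f eta Z C hf heta hZ T hT w y hyT hyw
  classical
  obtain ⟨q, lam, C', hq, hX⟩ := exists_quadratic_add_additive f C hf
  obtain ⟨hq0, C'', hle⟩ :=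
    nonneg_and_le_of_translates q lam eta (Z.image fun a => -a) (C + C') hq heta (by
      intro x
      obtain ⟨a, ha, h⟩ := hZ x
      refine ⟨-a, Finset.mem_image_of_mem _ ha, ?_⟩
      have h2 := abs_le.1 (hX (x - a))
      rw [← sub_eq_add_neg]
      linarith [h2.1, h2.2])
  -- `q (y n) ≤ q w`
  have hqy : ∀ n, q (y n) ≤ q w := by
    intro n
    have h := AbstractNorthcott.q_nsmul_add q hq (y n) 0 (n + 1)
    rw [add_zero, add_zero, AbstractNorthcott.q_zero q hq, hyw n] at h
    have h1 : (1 : ℝ) ≤ ((n + 1 : ℕ) : ℝ) ^ 2 := by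
      have : (1 : ℝ) ≤ ((n + 1 : ℕ) : ℝ) := by
        push_cast
        linarith [(Nat.cast_nonneg n : (0 : ℝ) ≤ n)]
      nlinarith
    have h2 := hq0 (y n)
    rw [h]
    nlinarith
  have hfin := hT (3 * q w + C'')
  have hmem : ∀ n, y n ∈ {z | z ∈ T ∧ eta z ≤ 3 * q w + C''} := by
    intro n
    refine ⟨hyT n, ?_⟩
    have := hle (y n)
    linarith [hqy n]
  obtain ⟨n, n', hne, heq⟩ : ∃ n n', n ≠ n' ∧ y n = y n' := by
    by_contra hcon
    push Not at hcon
    have hinj : Function.Injective y := fun a b hab => by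
      by_contra hne
      exact hcon a b hne hab
    exact Set.infinite_of_injective_forall_mem hinj hmem hfin
  -- wlog `n < n'`
  have main : ∀ a b : ℕ, a < b → y a = y b → ∃ m : ℕ, 0 < m ∧ m • w = 0 := by
    intro a b hab hy
    refine ⟨b - a, Nat.sub_pos_of_lt hab, ?_⟩
    have h1 := hyw a
    have h2 := hyw b
    rw [← hy] at h2
    have h3 : (b - a) • y a = 0 := by
      have e : b + 1 = (b - a) + (a + 1) := by omega
      rw [e, add_smul, h1] at h2
      exact add_eq_right.mp h2
    rw [← h1, smul_smul, mul_comm, mul_smul, h3, smul_zero]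
  rcases lt_or_gt_of_ne hne with h | h
  · exact main n n' h heq
  · exact main n' n h heq.symm

end Fermat.Agent.S43.G1
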