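/-
Row 37 (S43), block G1 (architect helper225).  Pure algebra: "Hecke words".

`HA = ℤ⟨X_ℓ⟩` (free associative algebra) acts on every abelian group `G` carrying a family of
endomorphisms `op ℓ`; no commutativity is needed.  Additive maps intertwining the families intertwine
the whole action; subgroups stable under the family are stable under the whole action.
-/
import Mathlib

set_option autoImplicit false

noncomputable section

namespace Fermat.Agent.S43.G1

/-- non commutative polynomials in the symbols `X_ℓ` -/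
abbrev HA : Type := FreeAlgebra ℤ ℕ

/-- the symbol `X_ℓ` -/
abbrev HA.X (ℓ : ℕ) : HA := FreeAlgebra.ι ℤ ℓ

section Act

variable {G G' : Type*} [AddCommGroup G] [AddCommGroup G']

/-- the action of `HA` attached to a family of endomorphisms -/
def act (op : ℕ → Module.End ℤ G) : HA →ₐ[ℤ] Module.End ℤ G := FreeAlgebra.lift ℤ op

@[simp] theorem act_X (op : ℕ → Module.End ℤ G) (ℓ : ℕ) : act op (HA.X ℓ) = op ℓ :=
  FreeAlgebra.lift_ι_apply op ℓ

theorem act_mul_apply (op : ℕ → Module.End ℤ G) (s t : HA) (x : G) :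
    act op (s * t) x = act op s (act op t x) := by
  rw [map_mul, Module.End.mul_apply]

/-- an additive map intertwining the generators intertwines everything -/
theorem act_intertwine (φ : G →+ G') (op : ℕ → Module.End ℤ G) (op' : ℕ → Module.End ℤ G')
    (h : ∀ ℓ x, φ (op ℓ x) = op' ℓ (φ x)) (t : HA) (x : G) :
    φ (act op t x) = act op' t (φ x) := by
  induction t using FreeAlgebra.induction generalizing x with
  | grade0 r =>
    rw [AlgHom.commutes, AlgHom.commutes, Module.algebraMap_end_apply, Module.algebraMap_end_apply,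
      map_zsmul]
  | grade1 ℓ => rw [act_X, act_X, h]
  | mul a b ha hb => rw [act_mul_apply, act_mul_apply, ha, hb]
  | add a b ha hb => rw [map_add, map_add, LinearMap.add_apply, LinearMap.add_apply, map_add, ha, hb]

/-- a subgroup stable under the generators is stable under everything -/
theorem act_mem (H : AddSubgroup G) (op : ℕ → Module.End ℤ G) (h : ∀ ℓ, ∀ x ∈ H, op ℓ x ∈ H)
    (t : HA) {x : G} (hx : x ∈ H) : act op t x ∈ H := by
  induction t using FreeAlgebra.induction generalizing x with
  | grade0 r =>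
    rw [AlgHom.commutes, Module.algebraMap_end_apply]
    exact H.zsmul_mem hx r
  | grade1 ℓ => rw [act_X]; exact h ℓ x hx
  | mul a b ha hb => rw [act_mul_apply]; exact ha (hb hx)
  | add a b ha hb => rw [map_add, LinearMap.add_apply]; exact H.add_mem (ha hx) (hb hx)

/-- a "partial" intertwiner: `φ` is only defined (additive) on a stable subgroup `H`. -/
theorem act_intertwine_on (H : AddSubgroup G) (φ : H →+ G') (op : ℕ → Module.End ℤ G)
    (op' : ℕ → Module.End ℤ G') (hs : ∀ ℓ, ∀ x ∈ H, op ℓ x ∈ H)
    (h : ∀ ℓ (x : H), φ ⟨op ℓ x, hs ℓ x x.2⟩ = op' ℓ (φ x)) (t : HA) (x : H) :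
    φ ⟨act op t x, act_mem H op hs t x.2⟩ = act op' t (φ x) := by
  induction t using FreeAlgebra.induction generalizing x with
  | grade0 r =>
    have e : (⟨act op (algebraMap ℤ HA r) x, act_mem H op hs _ x.2⟩ : H) = r • x := by
      apply Subtype.ext
      rw [AddSubgroup.coe_zsmul]
      show act op (algebraMap ℤ HA r) (x : G) = _
      rw [AlgHom.commutes, Module.algebraMap_end_apply]
    rw [e, map_zsmul, AlgHom.commutes, Module.algebraMap_end_apply]
  | grade1 ℓ =>
    have e : (⟨act op (FreeAlgebra.ι ℤ ℓ) x, act_mem H op hs _ x.2⟩ : H) =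
        ⟨op ℓ x, hs ℓ x x.2⟩ := by
      apply Subtype.ext
      show act op (HA.X ℓ) (x : G) = _
      rw [act_X]
    rw [e, h, act_X]
  | mul a b ha hb =>
    have e : (⟨act op (a * b) x, act_mem H op hs _ x.2⟩ : H) =
        ⟨act op a ((⟨act op b x, act_mem H op hs b x.2⟩ : H) : G),
          act_mem H op hs a (act_mem H op hs b x.2)⟩ := by
      apply Subtype.ext
      show act op (a * b) (x : G) = _
      rw [act_mul_apply]
    rw [e, ha, hb, act_mul_apply]
  | add a b ha hb =>
    have e : (⟨act op (a + b) x, act_mem H op hs _ x.2⟩ : H) =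
        ⟨act op a x, act_mem H op hs a x.2⟩ + ⟨act op b x, act_mem H op hs b x.2⟩ := by
      apply Subtype.ext
      show act op (a + b) (x : G) = _
      rw [map_add, LinearMap.add_apply]
      rfl
    rw [e, map_add, ha, hb, map_add, LinearMap.add_apply]

end Act

/-- abelianisation `ℤ⟨X_ℓ⟩ → ℤ[X_ℓ]` -/
def ab : HA →ₐ[ℤ] MvPolynomial ℕ ℤ := FreeAlgebra.lift ℤ MvPolynomial.X

@[simp] theorem ab_X (ℓ : ℕ) : ab (HA.X ℓ) = MvPolynomial.X ℓ := FreeAlgebra.lift_ι_apply _ ℓ

theorem ab_surjective : Function.Surjective ab := by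
  intro P
  induction P using MvPolynomial.induction_on with
  | C a => exact ⟨algebraMap ℤ HA a, by rw [AlgHom.commutes]; rfl⟩
  | add P Q hP hQ =>
    obtain ⟨s, rfl⟩ := hP
    obtain ⟨t, rfl⟩ := hQ
    exact ⟨s + t, map_add _ _ _⟩
  | mul_X P ℓ hP =>
    obtain ⟨s, rfl⟩ := hP
    exact ⟨s * HA.X ℓ, by rw [map_mul, ab_X]⟩

/-- if the action comes from a ring homomorphism out of `ℤ[X_ℓ]`, it factors through `ab` -/
theorem act_eq_of_ringHom {G : Type*} [AddCommGroup G] (ρ : MvPolynomial ℕ ℤ →+* Module.End ℤ G)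
    (t : HA) : act (fun ℓ => ρ (MvPolynomial.X ℓ)) t = ρ (ab t) := by
  induction t using FreeAlgebra.induction with
  | grade0 r =>
    rw [AlgHom.commutes, AlgHom.commutes]
    have : (algebraMap ℤ (MvPolynomial ℕ ℤ) r) = ((r : ℤ) : MvPolynomial ℕ ℤ) := by simp
    rw [this, map_intCast]
    simp
  | grade1 ℓ => rw [act_X, ab_X]
  | mul a b ha hb => rw [map_mul, map_mul, map_mul, ha, hb]
  | add a b ha hb => rw [map_add, map_add, map_add, ha, hb]

/-- evaluation of a word at a system of eigenvalues -/
def evalHA {R : Type*} [CommRing R] (a : ℕ → R) : HA →ₐ[ℤ] R := FreeAlgebra.lift ℤ a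

@[simp] theorem evalHA_X {R : Type*} [CommRing R] (a : ℕ → R) (ℓ : ℕ) : evalHA a (HA.X ℓ) = a ℓ :=
  FreeAlgebra.lift_ι_apply _ ℓ

theorem evalHA_eq_aeval {R : Type*} [CommRing R] (a : ℕ → R) (t : HA) :
    evalHA a t = MvPolynomial.aeval a (ab t) := by
  induction t using FreeAlgebra.induction with
  | grade0 r => rw [AlgHom.commutes, AlgHom.commutes, AlgHom.commutes]
  | grade1 ℓ => rw [evalHA_X, ab_X, MvPolynomial.aeval_X]
  | mul a b ha hb => rw [map_mul, map_mul, map_mul, ha, hb]
  | add a b ha hb => rw [map_add, map_add, map_add, ha, hb]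

/-- an eigenvector for the generators is an eigenvector for everything -/
theorem act_eigen {G : Type*} [AddCommGroup G] (op : ℕ → Module.End ℤ G) (a : ℕ → ℤ) (x : G)
    (h : ∀ ℓ, op ℓ x = a ℓ • x) (t : HA) : act op t x = evalHA a t • x := by
  induction t using FreeAlgebra.induction with
  | grade0 r =>
    rw [AlgHom.commutes, AlgHom.commutes, Module.algebraMap_end_apply]
    rfl
  | grade1 ℓ => rw [act_X, evalHA_X, h]
  | mul a b ha hb => rw [act_mul_apply, hb, map_zsmul, ha, map_mul, smul_smul, mul_comm]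
  | add a b ha hb => rw [map_add, LinearMap.add_apply, ha, hb, map_add, add_smul]

end Fermat.Agent.S43.G1

end
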