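/-
Row 37 (S43), block G1 (helper225): the formal compatibilities C1, C2, C3, B1, B2.
-/
import Fermat.Agent.S43.G1.Contract
import Fermat.Agent.S15.HJ.Equiv

set_option autoImplicit false
set_option linter.style.haveILetI false

noncomputable section

namespace Fermat.Agent.S43.G1

open AlgebraicCurve ModularCurve Fermat.Agent.S24 Fermat.Agent.GAL
open Fermat.Agent.S37.HeckeInputs
open Fermat.Agent.S18.Glue (divOf)
open Fermat.Agent.S16.Lift (homPE)
open Fermat.Agent.Lib.HeckeHom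

variable (M : ℕ) [NeZero M] (S : Set ℕ)

theorem opJ_good {ℓ : ℕ} (h : Good M S ℓ) (x : JZero M) :
    opJ M S ℓ x = (haveI := h.neZero; heckeOperatorAlong Kbar M ℓ x) := by
  unfold opJ
  rw [dif_pos h]
  rfl

theorem opJ_bad {ℓ : ℕ} (h : ¬ Good M S ℓ) : opJ M S ℓ = 0 := by
  unfold opJ
  rw [dif_neg h]

theorem opD_good {ℓ : ℕ} (h : Good M S ℓ) (D : Divisor Kbar (FN M)) :
    opD M S ℓ D = (haveI := h.neZero; heckeDiv M ℓ D) := by
  unfold opD
  rw [dif_pos h]
  rfl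

theorem opD_bad {ℓ : ℕ} (h : ¬ Good M S ℓ) : opD M S ℓ = 0 := by
  unfold opD
  rw [dif_neg h]

theorem opF_good {ℓ : ℕ} (h : Good M S ℓ) (u : Additive (FN M)ˣ) :
    opF M S ℓ u = (haveI := h.neZero; Additive.ofMul (E.heckeU M ℓ (Additive.toMul u))) := by
  unfold opF
  rw [dif_pos h]
  rfl

theorem opF_bad {ℓ : ℕ} (h : ¬ Good M S ℓ) : opF M S ℓ = 0 := by
  unfold opF
  rw [dif_neg h]

theorem opW_good (n : ℕ) {ℓ : ℕ} (h : Good M S ℓ) (w : E.W M n) :
    opW M S n ℓ w = (haveI := h.neZero; (E.heckeOp M ℓ h.1 h.2.1).TW n w) := by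
  unfold opW
  rw [dif_pos h]
  rfl

theorem opW_bad (n : ℕ) {ℓ : ℕ} (h : ¬ Good M S ℓ) : opW M S n ℓ = 0 := by
  unfold opW
  rw [dif_neg h]

theorem opH_bad (n : ℕ) {ℓ : ℕ} (h : ¬ Good M S ℓ) : opH M S n ℓ = 0 := by
  unfold opH tOf
  rw [dif_neg (show ¬ (ℓ.Prime ∧ ¬ ℓ ∣ M ∧ ℓ ∉ S) from h), map_zero]

theorem nodeC1 : NodeC1 := by
  intro M _ S ℓ u
  by_cases h : Good M S ℓ
  · haveI := h.neZero
    rw [opF_good M S h, opD_good M S h]
    ext v
    rw [heckeDiv_principal M ℓ (y := ((Additive.toMul u : (FN M)ˣ) : FN M)) (Units.ne_zero _)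
      (D := dv M u) (fun _ => rfl) v]
    rfl
  · rw [opF_bad M S h, opD_bad M S h]
    simp

theorem nodeC2 : NodeC2 := by
  intro M _ S ℓ D
  by_cases h : Good M S ℓ
  · haveI := h.neZero
    rw [opJ_good M S h, heckeOperatorAlong_mk]
    refine congrArg Pic0.mk (Subtype.ext ?_)
    exact opD_good M S h D
  · have e : (⟨opD M S ℓ D, opD_mem_degZero M S ℓ D D.2⟩ : Div0 M) = 0 := by
      apply Subtype.ext
      show opD M S ℓ (D : Divisor Kbar (FN M)) = 0
      rw [opD_bad M S h]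
      rfl
    rw [e, opJ_bad M S h]
    rfl

theorem nodeC3 : NodeC3 := by
  intro M _ S ℓ σ x
  by_cases h : Good M S ℓ
  · haveI := h.neZero
    rw [opJ_good M S h, opJ_good M S h]
    exact Fermat.Agent.S15.HJ.heckeOperatorAlong_smul M ℓ σ x
  · rw [opJ_bad M S h]
    simp

theorem nodeBetti : NodeBetti := by
  intro M _ S t ht n ψ
  have h := act_eq_of_ringHom ((actMod M S n).comp (polyHom M S)) t
  have e : (fun ℓ => ((actMod M S n).comp (polyHom M S)) (MvPolynomial.X ℓ)) = opH M S n := by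
    funext ℓ
    show actMod M S n (polyHom M S (MvPolynomial.X ℓ)) = _
    rw [polyHom_X]
    rfl
  rw [e] at h
  rw [h]
  show actMod M S n (polyHom M S (ab t)) ψ = 0
  rw [ht, map_zero]
  rfl

theorem nodeMult : NodeMult := by
  intro M _ S n hn
  obtain ⟨mult, hmult⟩ := Fermat.Agent.GAL.Mult.exists_multEquiv M n hn
  refine ⟨mult, fun ℓ x => ?_⟩
  by_cases h : Good M S ℓ
  · haveI := h.neZero
    apply Subtype.ext
    rw [opW_good M S n h, hmult ℓ h.1 h.2.1]
    unfold opH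
    rw [tOf_eq M S h.1 h.2.1 h.2.2, coe_actMod_T]
  · rw [opW_bad M S n h, opH_bad M S n h]
    simp

end Fermat.Agent.S43.G1

end
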