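/-
Row 37 (S43), block G1 (helper225): B3 (Kummer model versus torsion points), `NodeTors`, and
`kill`: a Hecke word which is `0` in the Hecke algebra of `S₂(Γ₀(M))` kills ALL of `J₀(M)(ℚ̄)`
(uses `G1H.torsKill`, helper37).
-/
import Fermat.Agent.S43.G1.Ops
import Fermat.Agent.S43.G1H.Main

set_option autoImplicit false
set_option linter.style.haveILetI false
set_option linter.unusedSectionVars false

noncomputable section

namespace Fermat.Agent.S43.G1

open AlgebraicCurve ModularCurve Fermat.Agent.S24 Fermat.Agent.GAL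
open Fermat.Agent.S37.HeckeInputs
open Fermat.Agent.S18.Glue (divOf)
open Fermat.Agent.S16.Lift (homPE)
open Fermat.Agent.Lib.HeckeHom

variable (M : ℕ) [NeZero M] (S : Set ℕ)

/-- `div (t u) = t (div u)` -/
theorem dv_act (t : HA) (u : Additive (FN M)ˣ) :
    dv M (act (opF M S) t u) = act (opD M S) t (dv M u) :=
  act_intertwine (dv M) (opF M S) (opD M S) (fun ℓ x => nodeC1 M S ℓ x) t u

/-- the class map -/
def mkHom : Div0 M →+ JZero M := QuotientAddGroup.mk' _

theorem mkHom_apply (D : Div0 M) : mkHom M D = Pic0.mk D := rfl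

theorem act_opD_mem_degZero (t : HA) (D : Div0 M) :
    act (opD M S) t (D : Divisor Kbar (FN M)) ∈ Divisor.degZero (K := Kbar) (F := FN M) :=
  act_mem _ (opD M S) (fun ℓ x hx => opD_mem_degZero M S ℓ x hx) t D.2

/-- `[t D] = t [D]` -/
theorem mk_act (t : HA) (D : Div0 M) :
    (Pic0.mk ⟨act (opD M S) t D, act_opD_mem_degZero M S t D⟩ : JZero M) =
      act (opJ M S) t (Pic0.mk D) :=
  act_intertwine_on (Divisor.degZero (K := Kbar) (F := FN M)) (mkHom M) (opD M S) (opJ M S)
    (fun ℓ x hx => opD_mem_degZero M S ℓ x hx) (fun ℓ x => nodeC2 M S ℓ x) t D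

/-- Galois equivariance of the whole action -/
theorem act_opJ_smul (t : HA) (σ : E.GQ) (x : JZero M) :
    act (opJ M S) t (σ • x) = σ • act (opJ M S) t x :=
  (act_intertwine (DistribSMul.toAddMonoidHom (JZero M) σ) (opJ M S) (opJ M S)
    (fun ℓ x => (nodeC3 M S ℓ σ x).symm) t x).symm

/-- the Kummer units, additively -/
def kumA (n : ℕ) : AddSubgroup (Additive (FN M)ˣ) := (E.kum M n).toAddSubgroup

theorem opF_mem_kumA (n ℓ : ℕ) (u : Additive (FN M)ˣ) (hu : u ∈ kumA M n) :
    opF M S ℓ u ∈ kumA M n := by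
  by_cases h : Good M S ℓ
  · haveI := h.neZero
    rw [opF_good M S h]
    exact (E.heckeOp M ℓ h.1 h.2.1).TU_mem_kum (Additive.toMul u) hu
  · rw [opF_bad M S h]
    exact AddSubgroup.zero_mem _

/-- the class of a Kummer unit, additively -/
def clsA (n : ℕ) : kumA M n →+ E.W M n where
  toFun u := E.cls (⟨Additive.toMul (u : Additive (FN M)ˣ), u.2⟩ : E.kum M n)
  map_zero' := rfl
  map_add' _ _ := rfl

theorem clsA_opF (n ℓ : ℕ) (u : kumA M n) :
    clsA M n ⟨opF M S ℓ u, opF_mem_kumA M S n ℓ u u.2⟩ = opW M S n ℓ (clsA M n u) := by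
  by_cases h : Good M S ℓ
  · haveI := h.neZero
    rw [opW_good M S n h]
    show _ = (E.heckeOp M ℓ h.1 h.2.1).TW n (E.cls _)
    rw [E.HeckeOp.TW_cls]
    show E.cls _ = E.cls _
    congr 1
    apply Subtype.ext
    show Additive.toMul (opF M S ℓ (u : Additive (FN M)ˣ)) = _
    rw [opF_good M S h]
    rfl
  · have e : (⟨opF M S ℓ u, opF_mem_kumA M S n ℓ u u.2⟩ : kumA M n) = 0 := by
      apply Subtype.ext
      show opF M S ℓ (u : Additive (FN M)ˣ) = 0
      rw [opF_bad M S h]
      rfl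
    rw [e, map_zero, opW_bad M S n h]
    rfl

theorem clsA_act (n : ℕ) (t : HA) (u : kumA M n) :
    clsA M n ⟨act (opF M S) t u, act_mem _ (opF M S) (opF_mem_kumA M S n) t u.2⟩ =
      act (opW M S n) t (clsA M n u) :=
  act_intertwine_on (kumA M n) (clsA M n) (opF M S) (opW M S n) (opF_mem_kumA M S n)
    (clsA_opF M S n) t u

theorem nodeKum : NodeKum := by
  intro M _ S t n hn hW x hx
  obtain ⟨D, rfl⟩ := Pic0.mk_surjective x
  -- `n D = div u`
  have h1 : n • D ∈ (Divisor.principal (K := Kbar) (F := FN M)).addSubgroupOf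
      (Divisor.degZero (K := Kbar) (F := FN M)) := (QuotientAddGroup.eq_zero_iff _).mp hx
  obtain ⟨u₀, hu₀, hDu⟩ : Divisor.IsPrincipal (n • (D : Divisor Kbar (FN M))) := h1
  set u : Additive (FN M)ˣ := Additive.ofMul (Units.mk0 u₀ hu₀) with hu
  have hdv : dv M u = n • (D : Divisor Kbar (FN M)) := by
    ext v
    rw [hDu v]
    rfl
  have hk : u ∈ kumA M n := by
    intro v
    have := hDu v
    show (n : ℤ) ∣ v.ord u₀
    rw [← this, Finsupp.smul_apply, nsmul_eq_mul]
    exact dvd_mul_right _ _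
  have h2 := clsA_act M S n t ⟨u, hk⟩
  rw [hW] at h2
  have h3 := (E.cls_eq_zero_iff _).1 h2
  obtain ⟨w, hw⟩ := h3
  -- `t (n D) = n div w`
  have h4 : act (opF M S) t u = n • Additive.ofMul w := by
    apply Additive.toMul.injective
    exact hw.symm
  have h5 : n • act (opD M S) t (D : Divisor Kbar (FN M)) = n • dv M (Additive.ofMul w) := by
    rw [← map_nsmul, ← hdv, ← dv_act, h4, map_nsmul]
  have h6 : act (opD M S) t (D : Divisor Kbar (FN M)) = dv M (Additive.ofMul w) := by
    ext v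
    have := DFunLike.congr_fun h5 v
    rw [Finsupp.smul_apply, Finsupp.smul_apply, nsmul_eq_mul, nsmul_eq_mul] at this
    exact mul_left_cancel₀ (by exact_mod_cast hn.ne') this
  rw [← mk_act]
  refine (QuotientAddGroup.eq_zero_iff _).mpr ?_
  show Divisor.IsPrincipal (act (opD M S) t (D : Divisor Kbar (FN M)))
  rw [h6]
  exact ⟨(w : FN M), Units.ne_zero w, fun _ => rfl⟩

theorem nodeTors : NodeTors := by
  intro M _ S t ht n hn x hx
  refine nodeKum M S t n hn (fun w => ?_) x hx
  obtain ⟨mult, hmult⟩ := nodeMult M S n hn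
  apply mult.injective
  rw [map_zero]
  have h := act_intertwine mult.toAddMonoidHom (opW M S n) (opH M S n) hmult t w
  exact h.trans (nodeBetti M S t ht n _)

/-- **KILL**: a Hecke word which vanishes in the Hecke algebra of `S₂(Γ₀(M))` kills `J₀(M)(ℚ̄)`. -/
theorem kill (t : HA) (ht : polyHom M S (ab t) = 0) (x : JZero M) : act (opJ M S) t x = 0 :=
  Fermat.Agent.S43.G1H.torsKill M (act (opJ M S) t).toAddMonoidHom
    (fun σ x => act_opJ_smul M S t σ x)
    (fun x ⟨n, hn, hx⟩ => nodeTors M S t ht n hn x hx) x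

/-- for every divisor `E` of degree `0`, `t E` is principal -/
theorem exists_dv_eq (t : HA) (ht : polyHom M S (ab t) = 0) (E : Div0 M) :
    ∃ f : (FN M)ˣ, act (opD M S) t (E : Divisor Kbar (FN M)) = dv M (Additive.ofMul f) := by
  have h := kill M S t ht (Pic0.mk E)
  rw [← mk_act] at h
  obtain ⟨f, hf, hD⟩ : Divisor.IsPrincipal (act (opD M S) t (E : Divisor Kbar (FN M))) :=
    (QuotientAddGroup.eq_zero_iff _).mp h
  exact ⟨Units.mk0 f hf, by ext v; rw [hD v]; rfl⟩

end Fermat.Agent.S43.G1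

end
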