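/-
Row 37 (S43), block G1 (helper225): ASSEMBLY.
`core1_of : NodeForm → NodeKerStable → NodeRedConst → NodeCore1`.
-/
import Fermat.Agent.S43.G1.Kill

set_option autoImplicit false
set_option linter.style.haveILetI false
set_option linter.unusedSectionVars false

noncomputable section

namespace Fermat.Agent.S43.G1

open AlgebraicCurve ModularCurve Fermat.Agent.S24 Fermat.Agent.GAL
open Fermat.Agent.S37 (red redDiv X Pl GoodBase redDiv_apply)
open Fermat.Agent.S18.Glue (divOf)
open Fermat.Agent.Lib.HeckeHom (polyHom)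
open Fermat.Agent.S44 (Fk kA IsRed)

/-- **CORE** (with `t` itself). -/
def NodeCore1 : Prop :=
  ∀ (A : ValuationSubring Kbar) (M : ℕ) [NeZero M] (q : ℕ), q.Prime → A.LiesOverPrime q →
    ¬ q ∣ M → GoodBase M q → ∀ (S : Set ℕ) (t : HA), polyHom M S (ab t) = 0 →
    ∀ (n : ℕ), 0 < n → ∀ (u : (FN M)ˣ) (ubar : Fk A M),
      IsRed A (u : FN M) (ubar : LaurentSeries (kA A)) →
      (∀ v : Place (kA A) (Fk A M), (n : ℤ) ∣ v.ord ubar) →
      ∃ f : (FN M)ˣ, Cong1 M A
        (((Additive.toMul (act (opF M S) t (Additive.ofMul u)) : (FN M)ˣ) : FN M) / (f : FN M) ^ n)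

/-- the sum of the coefficients -/
def tot {α : Type*} : (α →₀ ℤ) →+ ℤ := Finsupp.liftAddHom fun _ => AddMonoidHom.id ℤ

theorem tot_single {α : Type*} (a : α) (n : ℤ) : tot (Finsupp.single a n) = n := by
  simp [tot]

theorem tot_mapDomain {α β : Type*} (f : α → β) (D : α →₀ ℤ) :
    tot (Finsupp.mapDomain f D) = tot D := by
  induction D using Finsupp.induction_linear with
  | zero => simp
  | add a b ha hb => rw [Finsupp.mapDomain_add, map_add, map_add, ha, hb]
  | single a n => rw [Finsupp.mapDomain_single, tot_single, tot_single]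

theorem degree_eq_tot (M : ℕ) [NeZero M] (D : Divisor Kbar (FN M)) :
    Divisor.degree D = tot D := by
  induction D using Finsupp.induction_linear with
  | zero => simp
  | add a b ha hb => rw [map_add, map_add, ha, hb]
  | single a n =>
    rw [tot_single, Fermat.Agent.S37.HeckeInputs.degree_eq_sum, Finsupp.sum_single_index rfl]

theorem core1_of' (hForm : NodeForm)
    (hKS : ∀ (A : ValuationSubring Kbar) (M : ℕ) [NeZero M] (q : ℕ), q.Prime → A.LiesOverPrime q →
      ¬ q ∣ M → ∀ (S : Set ℕ) (ℓ : ℕ) (D : Divisor Kbar (FN M)),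
      redDiv A M D = 0 → redDiv A M (opD M S ℓ D) = 0)
    (hRC : NodeRedConst) : NodeCore1 := by
  intro A M _ q hq hA hqM hG S t ht n hn u ubar hred hdiv
  classical
  have hn0 : (n : ℤ) ≠ 0 := by exact_mod_cast hn.ne'
  set Du : Divisor Kbar (FN M) := dv M (Additive.ofMul u) with hDu
  have hrange : ∀ x, redDiv A M Du x ≠ 0 → ∃ P, red A M P = x := by
    intro x hx
    have h := Finsupp.mapDomain_support (f := red A M) (s := Du)
      (Finsupp.mem_support_iff.2 (by rw [← redDiv_apply]; exact hx))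
    obtain ⟨P, _, hP⟩ := Finset.mem_image.1 h
    exact ⟨P, hP⟩
  -- step 1
  have h1 : ∀ x, (n : ℤ) ∣ redDiv A M Du x := by
    intro x
    by_cases hx : redDiv A M Du x = 0
    · rw [hx]; exact dvd_zero _
    · obtain ⟨P, rfl⟩ := hrange x hx
      obtain ⟨v, hv⟩ := hForm A M q hq hA hqM hG P
      have := hv (u : FN M) ubar (Units.ne_zero u) hred
      rw [show Du = divOf Kbar (u : FN M) from rfl, this]
      exact hdiv v
  -- step 2
  set Eb : X A M →₀ ℤ := (redDiv A M Du).mapRange (fun a => a / (n : ℤ)) (by simp) with hEb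
  have hnEb : n • Eb = redDiv A M Du := by
    ext x
    rw [Finsupp.smul_apply, hEb, Finsupp.mapRange_apply, nsmul_eq_mul]
    exact Int.mul_ediv_cancel' (h1 x)
  let s : X A M → Pl M := fun x =>
    if h : ∃ P, red A M P = x then h.choose else Fermat.Agent.S17.W.cusp M
  have hs : ∀ x, Eb x ≠ 0 → red A M (s x) = x := by
    intro x hx
    have hx' : redDiv A M Du x ≠ 0 := by
      intro h0
      apply hx
      rw [hEb, Finsupp.mapRange_apply, h0]
      simp
    have h := hrange x hx'
    show red A M (if h : ∃ P, red A M P = x then h.choose else _) = x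
    rw [dif_pos h]
    exact h.choose_spec
  set E : Divisor Kbar (FN M) := Finsupp.mapDomain s Eb with hE
  have hredE : redDiv A M E = Eb := by
    rw [redDiv_apply, hE, ← Finsupp.mapDomain_comp]
    conv_rhs => rw [← Finsupp.mapDomain_id (v := Eb)]
    exact Finsupp.mapDomain_congr fun x hx => hs x (Finsupp.mem_support_iff.1 hx)
  -- step 3
  have hdeg : E ∈ Divisor.degZero (K := Kbar) (F := FN M) := by
    rw [Divisor.mem_degZero, degree_eq_tot, hE, tot_mapDomain]
    have h2 : (n : ℤ) * tot Eb = 0 := by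
      rw [← nsmul_eq_mul, ← map_nsmul, hnEb, redDiv_apply, tot_mapDomain, ← degree_eq_tot]
      exact Fermat.Agent.S18.Glue.degree_divOf _
    exact (mul_eq_zero.1 h2).resolve_left hn0
  -- step 4
  obtain ⟨f, hf⟩ := exists_dv_eq M S t ht ⟨E, hdeg⟩
  refine ⟨f, ?_⟩
  -- step 5
  set G : Additive (FN M)ˣ := act (opF M S) t (Additive.ofMul u) - n • Additive.ofMul f with hGdef
  have hdvG : dv M G = act (opD M S) t (Du - n • E) := by
    rw [hGdef, map_sub, map_nsmul, dv_act, ← hf, map_sub, map_nsmul]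
  have hker : Du - n • E ∈ (redDiv A M).ker := by
    rw [AddMonoidHom.mem_ker, map_sub, map_nsmul, hredE, hnEb, sub_self]
  have hker' : act (opD M S) t (Du - n • E) ∈ (redDiv A M).ker :=
    act_mem _ (opD M S) (fun ℓ D hD => hKS A M q hq hA hqM S ℓ D hD) t hker
  have hcoe : ((Additive.toMul G : (FN M)ˣ) : FN M) =
      ((Additive.toMul (act (opF M S) t (Additive.ofMul u)) : (FN M)ˣ) : FN M) / (f : FN M) ^ n := by
    rw [hGdef]
    show (((Additive.toMul (act (opF M S) t (Additive.ofMul u)) : (FN M)ˣ) / f ^ n : (FN M)ˣ) : FN M)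
      = _
    rw [Units.val_div_eq_div_val, Units.val_pow_eq_pow_val]
  rw [← hcoe]
  refine hRC A M q hq hA hqM hG _ (Units.ne_zero _) ?_
  show redDiv A M (dv M G) = 0
  rw [hdvG]
  exact hker'

theorem core1_of (hForm : NodeForm) (hKS : NodeKerStable) (hRC : NodeRedConst) : NodeCore1 :=
  core1_of' hForm (fun A M _ _ _ _ _ S ℓ D hD => hKS A M S ℓ D hD) hRC

/-- the form of the contract (with `t * t`) -/
theorem core_of_core1 (h : NodeCore1) : NodeCore := by
  intro A M _ q hq hA hqM hG S t ht n hn u ubar hred hdiv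
  exact h A M q hq hA hqM hG S (t * t) (by rw [map_mul, map_mul, ht, mul_zero]) n hn u ubar hred hdiv

end Fermat.Agent.S43.G1

end
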