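/-
Row 37 (S43), block G1 (architect helper225).  DEFINITIONS.

Level `M`, a set `S` of excluded primes.  `Good M S ℓ`: `ℓ` prime, `ℓ ∤ M`, `ℓ ∉ S`.
The Hecke operators `T_ℓ` (`Good ℓ`; `0` at all other indices, the convention of
`Lib.HeckeHom.tOf`) as families of endomorphisms of
* `JZero M`                       : `opJ`   (`heckeOperatorAlong`)
* `Divisor Kbar (FN M)`           : `opD`   (`heckeDiv = α_* β^*`)
* `Divisor.degZero`               : `opD0`
* `Additive (FN M)ˣ`              : `opF`   (`heckeU = Norm_α ∘ β`, multiplicative)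
* `E.W M n`                       : `opW`   (Kummer model of `J[n]`)
* `homPE M (ZMod n)`              : `opH`   (Betti cohomology)
so that `HA = ℤ⟨X_ℓ⟩` acts on all of them (`act`, see `Alg.lean`).
-/
import Fermat.Agent.S43.G1.Alg
import Fermat.Agent.S37.Export
import Fermat.Agent.S18.Glue.FF0
import Fermat.Agent.GAL.E.Exists
import Fermat.Agent.Lib.HeckeHom.Faithful
import Fermat.Agent.S44.Defs

set_option autoImplicit false

noncomputable section

namespace Fermat.Agent.S43.G1

open AlgebraicCurve ModularCurve Fermat.Agent.S24 Fermat.Agent.GAL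
open Fermat.Agent.S37 (red redDiv X)
open Fermat.Agent.S37.HeckeInputs (heckeDiv heckeDiv_mem_degZero)
open Fermat.Agent.S18.Glue (divOf)
open Fermat.Agent.S16.Lift (homPE)
open Fermat.Agent.Lib.HeckeHom (actMod polyHom tOf)

variable (M : ℕ) [NeZero M] (S : Set ℕ)

/-- the good primes -/
def Good (ℓ : ℕ) : Prop := ℓ.Prime ∧ ¬ ℓ ∣ M ∧ ℓ ∉ S

theorem Good.neZero {M : ℕ} {S : Set ℕ} {ℓ : ℕ} (h : Good M S ℓ) : NeZero ℓ := ⟨h.1.ne_zero⟩

open Classical in
/-- `T_ℓ` on `J₀(M)(ℚ̄)` -/
def opJ (ℓ : ℕ) : Module.End ℤ (JZero M) :=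
  if h : Good M S ℓ then
    haveI := h.neZero
    (heckeOperatorAlong Kbar M ℓ).toIntLinearMap
  else 0

open Classical in
/-- `T_ℓ` on divisors -/
def opD (ℓ : ℕ) : Module.End ℤ (Divisor Kbar (FN M)) :=
  if h : Good M S ℓ then
    haveI := h.neZero
    (heckeDiv M ℓ).toIntLinearMap
  else 0

/-- divisors of degree `0` -/
abbrev Div0 : Type := ↥(Divisor.degZero (K := Kbar) (F := FN M))

theorem opD_mem_degZero (ℓ : ℕ) (D : Divisor Kbar (FN M))
    (hD : D ∈ Divisor.degZero (K := Kbar) (F := FN M)) :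
    opD M S ℓ D ∈ Divisor.degZero (K := Kbar) (F := FN M) := by
  unfold opD
  split_ifs with h
  · haveI := h.neZero
    exact heckeDiv_mem_degZero M ℓ hD
  · exact AddSubgroup.zero_mem _

open Classical in
/-- `T_ℓ` on functions (multiplicative, written additively) -/
def opF (ℓ : ℕ) : Module.End ℤ (Additive (FN M)ˣ) :=
  if h : Good M S ℓ then
    haveI := h.neZero
    (MonoidHom.toAdditive (E.heckeU M ℓ)).toIntLinearMap
  else 0

open Classical in
/-- `T_ℓ` on the Kummer model of `J₀(M)[n]` -/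
def opW (n ℓ : ℕ) : Module.End ℤ (E.W M n) :=
  if h : Good M S ℓ then
    haveI := h.neZero
    AddMonoidHom.toIntLinearMap ((E.heckeOp M ℓ h.1 h.2.1).TW n)
  else 0

/-- `T_ℓ` on `Hom_{par,ell}(Γ₀(M), ℤ/n)` -/
def opH (n ℓ : ℕ) : Module.End ℤ (homPE M (ZMod n)) := actMod M S n (tOf M S ℓ)

/-- the divisor of a function, as an additive map -/
def dv : Additive (FN M)ˣ →+ Divisor Kbar (FN M) where
  toFun u := divOf Kbar ((Additive.toMul u : (FN M)ˣ) : FN M)
  map_zero' := by
    show divOf Kbar (((1 : (FN M)ˣ) : (FN M)ˣ) : FN M) = 0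
    rw [Units.val_one]
    exact Fermat.Agent.S18.Glue.divOf_one
  map_add' u v := by
    show divOf Kbar (((Additive.toMul u * Additive.toMul v : (FN M)ˣ)) : FN M) = _
    rw [Units.val_mul]
    exact Fermat.Agent.S18.Glue.divOf_mul (Units.ne_zero _) (Units.ne_zero _)

theorem dv_apply (u : (FN M)ˣ) (v : Place Kbar (FN M)) :
    dv M (Additive.ofMul u) v = v.ord (u : FN M) := rfl

/-- `g ≡ const` for the Gauss valuation attached to `A` (`q`-expansion at `∞`) -/
def Cong1 (A : ValuationSubring Kbar) (g : FN M) : Prop :=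
  Fermat.Agent.S44.IsRed A g (1 : LaurentSeries (Fermat.Agent.S44.kA A))

end Fermat.Agent.S43.G1

end
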