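/-
Row 37 (S43), block G1, node R1 (helper11): the reduction of `T_ℓ P` depends only on the reduction of `P`
(`A | q`, `q ∤ M`, `ℓ` a prime not dividing `M`).

Proof.  For `b` in the chart ring `B = BY y` (`y = j` or `1/j`) and `c ∈ A` put `T = Norm_β (α (c - b))`.
`T` has an `A`-integral `q`-expansion, is regular with values in `A` on the region of the chart, and
`T(P) = ∏_{W ↦ P} (c - b(α W))^{e_W}`.  Clearing the poles of `T` by a polynomial `h ∈ A[y]`, `h ≡ 1` on the region,
`h T ∈ B` (`q`-expansion principle), so the reduction of `T(P)` depends only on `red P`.  Separation lemma.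
-/
import Fermat.Agent.S43.G1.Contract
import Fermat.Agent.S37.RedHecke.Main
import Fermat.Agent.S37.Final
import Fermat.Agent.S44.F.Hecke.Red

set_option autoImplicit false
set_option linter.style.haveILetI false
set_option linter.unusedSectionVars false

noncomputable section

namespace Fermat.Agent.S43.G1

open AlgebraicCurve ModularCurve Fermat.Agent.S24 Fermat.Agent.S37 Fermat.Agent.S37.HeckeInputs

/-- Abstract core: an identity of "characteristic polynomials" of two finite families of points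
is an identity of `0`-cycles. -/
theorem hr_sep {B k A₀ X ι ι' : Type*} [CommRing B] [Field k] [Infinite k]
    (κ : A₀ → B) (ρ : A₀ → k) (hρ : Function.Surjective ρ)
    (s : Finset ι) (ev : ι → (B →+* k)) (mult : ι → ℕ)
    (s' : Finset ι') (ev' : ι' → (B →+* k)) (mult' : ι' → ℕ)
    (hev : ∀ w ∈ s, ∀ a, ev w (κ a) = ρ a) (hev' : ∀ w ∈ s', ∀ a, ev' w (κ a) = ρ a)
    (h : ∀ (b : B) (c : k),
      ∏ w ∈ s, (c - ev w b) ^ mult w = ∏ w ∈ s', (c - ev' w b) ^ mult' w)
    (J : (B →+* k) → X) :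
    ∑ w ∈ s, Finsupp.single (J (ev w)) (mult w : ℤ) =
      ∑ w ∈ s', Finsupp.single (J (ev' w)) (mult' w : ℤ) := by
  classical
  let S : Set (B →+* k) := {e | ∀ a, e (κ a) = ρ a}
  have hsurj : ∀ e ∈ S, Function.Surjective e := by
    intro e he x
    obtain ⟨a, rfl⟩ := hρ x
    exact ⟨κ a, he a⟩
  have hker : ∀ e ∈ S, ∀ e' ∈ S, RingHom.ker e = RingHom.ker e' → e = e' := by
    intro e he e' he' hk
    ext b
    obtain ⟨a, ha⟩ := hρ (e b)
    have h1 : b - κ a ∈ RingHom.ker e := by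
      rw [RingHom.mem_ker, map_sub, he a, ha, sub_self]
    rw [hk, RingHom.mem_ker, map_sub, he' a, ha, sub_eq_zero] at h1
    exact h1.symm
  let m : (B →+* k) →₀ ℕ := ∑ w ∈ s, Finsupp.single (ev w) (mult w)
  let m' : (B →+* k) →₀ ℕ := ∑ w ∈ s', Finsupp.single (ev' w) (mult' w)
  have hm : ∀ e, m e ≠ 0 → e ∈ S := by
    intro e he
    by_contra hS
    apply he
    simp only [m, Finsupp.finsetSum_apply]
    refine Finset.sum_eq_zero fun w hw => ?_
    rw [Finsupp.single_apply, if_neg]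
    rintro rfl
    exact hS (hev w hw)
  have hm' : ∀ e, m' e ≠ 0 → e ∈ S := by
    intro e he
    by_contra hS
    apply he
    simp only [m', Finsupp.finsetSum_apply]
    refine Finset.sum_eq_zero fun w hw => ?_
    rw [Finsupp.single_apply, if_neg]
    rintro rfl
    exact hS (hev' w hw)
  have hz : ∀ (b : B) (c : k) (e : B →+* k), (c - e b) ^ 0 = 1 := fun _ _ _ => pow_zero _
  have hadd : ∀ (b : B) (c : k) (e : B →+* k) (n₁ n₂ : ℕ),
      (c - e b) ^ (n₁ + n₂) = (c - e b) ^ n₁ * (c - e b) ^ n₂ := fun _ _ _ _ _ => pow_add _ _ _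
  have hprod : ∀ (b : B) (c : k),
      m.prod (fun e n => (c - e b) ^ n) = ∏ w ∈ s, (c - ev w b) ^ mult w := by
    intro b c
    simp only [m]
    rw [← Finsupp.prod_finsetSum_index (hz b c) (hadd b c)]
    exact Finset.prod_congr rfl fun w _ =>
      Finsupp.prod_single_index (h := fun (e : B →+* k) (n : ℕ) => (c - e b) ^ n) (pow_zero _)
  have hprod' : ∀ (b : B) (c : k),
      m'.prod (fun e n => (c - e b) ^ n) = ∏ w ∈ s', (c - ev' w b) ^ mult' w := by
    intro b c
    simp only [m']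
    rw [← Finsupp.prod_finsetSum_index (hz b c) (hadd b c)]
    exact Finset.prod_congr rfl fun w _ =>
      Finsupp.prod_single_index (h := fun (e : B →+* k) (n : ℕ) => (c - e b) ^ n) (pow_zero _)
  have hmm : m = m' :=
    sep_lemma m m' S hm hm' hsurj hker fun b c => by rw [hprod, hprod', h]
  let Φ : ((B →+* k) →₀ ℕ) →+ (X →₀ ℤ) :=
    Finsupp.liftAddHom fun e => (Finsupp.singleAddHom (J e)).comp (Nat.castAddMonoidHom ℤ)
  have hΦ : ∀ (e : B →+* k) (n : ℕ), Φ (Finsupp.single e n) = Finsupp.single (J e) (n : ℤ) := by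
    intro e n
    simp [Φ]
  have h3 := congrArg Φ hmm
  simp only [m, m', map_sum, hΦ] at h3
  exact h3

variable (A : ValuationSubring Kbar) (N : ℕ) [NeZero N]

/-- Clearing the poles: a function with an `A`-integral `q`-expansion which is regular with values in `A`
on the region of the chart `y` coincides, modulo `𝔪_A` on the region, with an element of `BY y`. -/
theorem hr_clear {y : FN N} (hy : Transcendental Kbar y) (hQ : QAY A N y) (reg : Pl N → Prop)
    (hreg : ∀ P, reg P → Reg A N y P)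
    (hout : ∀ Q : Pl N, ¬ reg Q → 0 ≤ Q.ord y →
      ∃ a ∈ A, a * val Q y = 1 ∧ ∀ P, reg P → a * val P y ∈ A.nonunits)
    (T : FN N) (Y : LaurentSeries A) (hT : HasIntExp A N T Y)
    (hTreg : ∀ P, reg P → 0 ≤ P.ord T ∧ val P T ∈ A) :
    ∃ z ∈ BY A N y, ∀ P, reg P → resA A (val P z) = resA A (val P T) := by
  classical
  rcases eq_or_ne T 0 with rfl | hT0
  · exact ⟨0, zero_mem _, fun P _ => rfl⟩
  -- the poles
  set S : Finset (Pl N) :=
    (Fermat.Agent.S18.Glue.divOf Kbar T).support.filter fun Q => Q.ord T < 0 ∧ 0 ≤ Q.ord y with hSdef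
  have hS : ∀ Q, Q ∈ S ↔ Q.ord T < 0 ∧ 0 ≤ Q.ord y := by
    intro Q
    rw [hSdef, Finset.mem_filter, Finsupp.mem_support_iff]
    constructor
    · exact fun h => h.2
    · intro h
      refine ⟨?_, h⟩
      rw [Fermat.Agent.S18.Glue.divOf_apply]
      exact h.1.ne
  have hex : ∀ Q : Pl N, ∃ a : Kbar, Q ∈ S →
      (a ∈ A ∧ a * val Q y = 1 ∧ ∀ P, reg P → a * val P y ∈ A.nonunits) := by
    intro Q
    by_cases hQS : Q ∈ S
    · obtain ⟨h1, h2⟩ := (hS Q).1 hQS
      have hnr : ¬ reg Q := fun hr => absurd (hTreg Q hr).1 (not_le.2 h1)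
      obtain ⟨a, ha, h3, h4⟩ := hout Q hnr h2
      exact ⟨a, fun _ => ⟨ha, h3, h4⟩⟩
    · exact ⟨0, fun h => absurd h hQS⟩
  choose a ha using hex
  let g : Pl N → FN N := fun Q => 1 - algebraMap Kbar (FN N) (a Q) * y
  let e : Pl N → ℕ := fun Q => (- Q.ord T).toNat
  set h : FN N := ∏ Q ∈ S, g Q ^ e Q with hh
  have hgB : ∀ Q ∈ S, g Q ∈ BY A N y := fun Q hQ =>
    sub_mem (one_mem _) (mul_mem (algebraMap_mem_BY (ha Q hQ).1) self_mem_BY)
  have hhB : h ∈ BY A N y := prod_mem fun Q hQ => pow_mem (hgB Q hQ) _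
  have hgord : ∀ (v : Pl N), 0 ≤ v.ord y → ∀ Q, 0 ≤ v.ord (g Q) := fun v hv Q =>
    ord_sub_nonneg (by rw [Place.ord_one]) (ord_mul_nonneg (ord_algebraMap_nonneg _) hv)
  -- `h T` is regular where `y` is
  have hzord : ∀ v : Pl N, 0 ≤ v.ord y → 0 ≤ v.ord (h * T) := by
    intro v hv
    have hhord : 0 ≤ v.ord h :=
      ord_prod_nonneg _ _ fun Q _ => ord_pow_nonneg (hgord v hv Q) _
    by_cases hvT : 0 ≤ v.ord T
    · exact ord_mul_nonneg hhord hvT
    · rw [not_le] at hvT
      have hvS : v ∈ S := (hS v).2 ⟨hvT, hv⟩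
      have hsplit : h = g v ^ e v * ∏ Q ∈ S.erase v, g Q ^ e Q := by
        rw [hh, Finset.mul_prod_erase S (fun Q => g Q ^ e Q) hvS]
      have hrest : 0 ≤ v.ord (∏ Q ∈ S.erase v, g Q ^ e Q) :=
        ord_prod_nonneg _ _ fun Q _ => ord_pow_nonneg (hgord v hv Q) _
      have hval : val v (g v) = 0 := by
        show val v (1 - algebraMap Kbar (FN N) (a v) * y) = 0
        rw [val_sub (by rw [Place.ord_one]) (ord_mul_nonneg (ord_algebraMap_nonneg _) hv),
          val_mul (ord_algebraMap_nonneg _) hv, val_algebraMap, (ha v hvS).2.1, val_one, sub_self]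
      have hmain : 0 ≤ v.ord (g v ^ e v * T) := by
        rcases (val_eq_zero_iff (hgord v hv v)).1 hval with h0 | hpos
        · have he : e v ≠ 0 := by
            show (- v.ord T).toNat ≠ 0
            omega
          rw [h0, zero_pow he, zero_mul, Place.ord_zero]
        · have hg0 : g v ≠ 0 := by
            intro h0
            rw [h0, Place.ord_zero] at hpos
            exact lt_irrefl _ hpos
          rw [Place.ord_mul v (pow_ne_zero _ hg0) hT0, ← zpow_natCast, Place.ord_zpow]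
          have he : ((e v : ℕ) : ℤ) = - v.ord T := Int.toNat_of_nonneg (by omega)
          rw [he]
          nlinarith
      have e3 : h * T = (g v ^ e v * T) * ∏ Q ∈ S.erase v, g Q ^ e Q := by
        rw [hsplit]; ring
      rw [e3]
      exact ord_mul_nonneg hmain hrest
  -- values on the region
  have hhval : ∀ P, reg P → 0 ≤ P.ord h ∧ val P h ∈ A ∧ resA A (val P h) = 1 := by
    intro P hP
    have hPy := hreg P hP
    have h1 : ∀ Q ∈ S, 0 ≤ P.ord (g Q ^ e Q) := fun Q _ => ord_pow_nonneg (hgord P hPy.1 Q) _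
    have h2 : ∀ Q ∈ S, val P (g Q) ∈ A ∧ resA A (val P (g Q)) = 1 := by
      intro Q hQ
      have e1 : val P (g Q) = 1 - a Q * val P y := by
        show val P (1 - algebraMap Kbar (FN N) (a Q) * y) = _
        rw [val_sub (by rw [Place.ord_one]) (ord_mul_nonneg (ord_algebraMap_nonneg _) hPy.1),
          val_mul (ord_algebraMap_nonneg _) hPy.1, val_algebraMap, val_one]
      have h3 := (ha Q hQ).2.2 P hP
      rw [e1]
      refine ⟨A.sub_mem A.one_mem (A.nonunits_subset h3), ?_⟩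
      rw [resA_sub A.one_mem (A.nonunits_subset h3), resA_of_mem_nonunits h3, sub_zero, resA_one]
    refine ⟨ord_prod_nonneg _ _ h1, ?_, ?_⟩
    · rw [hh, val_prod _ _ h1]
      refine prod_mem fun Q hQ => ?_
      rw [val_pow (hgord P hPy.1 Q)]
      exact pow_mem (h2 Q hQ).1 _
    · rw [hh, val_prod _ _ h1, resA_prod]
      · refine Finset.prod_eq_one fun Q hQ => ?_
        rw [val_pow (hgord P hPy.1 Q), resA_pow (h2 Q hQ).1, (h2 Q hQ).2, one_pow]
      · intro Q hQ
        rw [val_pow (hgord P hPy.1 Q)]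
        exact pow_mem (h2 Q hQ).1 _
  refine ⟨h * T, ?_, fun P hP => ?_⟩
  · -- `h T ∈ BY`
    rcases eq_or_ne (h * T) 0 with h0 | h0
    · rw [h0]; exact zero_mem _
    have hint : IsIntegral (Algebra.adjoin Kbar {y}) (h * T) :=
      final_regInt N y hy (h * T) hzord
    obtain ⟨c, z', Y', hc0, hzz', hz', hY', hρ⟩ := hQ.2 (h * T) h0 hint
    obtain ⟨Yh, hYh⟩ := hQ.1 h hhB
    have hc : c ∈ A := by
      by_contra hcon
      have hinv : c⁻¹ ∈ A.nonunits := by
        rw [ValuationSubring.mem_nonunits_iff, map_inv₀]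
        rw [← ValuationSubring.valuation_le_one_iff, not_le] at hcon
        exact inv_lt_one_of_one_lt₀ hcon
      have hz'2 : z' = algebraMap Kbar (FN N) c⁻¹ * (h * T) := by
        rw [hzz', ← mul_assoc, ← map_mul, inv_mul_cancel₀ hc0, map_one, one_mul]
      exact hρ ((hYh.mul hT).rho_eq_zero hY' hz'2 hinv)
    rw [hzz']
    exact mul_mem (algebraMap_mem_BY hc) hz'
  · obtain ⟨h1, h2, h3⟩ := hhval P hP
    rw [val_mul h1 (hTreg P hP).1, resA_mul h2 (hTreg P hP).2, h3, one_mul]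

variable (ℓ : ℕ) [NeZero ℓ]

/-- `α : b(q) ↦ b(q)` -/
local notation "αα" => heckeAlphaBar Kbar N ℓ
/-- `β : b(q) ↦ b(q^ℓ)` -/
local notation "ββ" => heckeBetaBar Kbar N ℓ

/-- The Hecke polynomial of `P` modulo `𝔪_A` depends only on the reduction of `P`. -/
theorem hr_poly {y : FN N} (hy : Transcendental Kbar y) (hQ : QAY A N y) (reg : Pl N → Prop)
    (hreg : ∀ P, reg P → Reg A N y P)
    (hout : ∀ Q : Pl N, ¬ reg Q → 0 ≤ Q.ord y →
      ∃ a ∈ A, a * val Q y = 1 ∧ ∀ P, reg P → a * val P y ∈ A.nonunits)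
    (hRegion : ∀ W : Pl (N * ℓ), reg (W.restrictAlong αα (alpha_integral N ℓ)) ↔
      reg (W.restrictAlong ββ (beta_integral N ℓ)))
    (hC : ConjNorm N ℓ)
    (P P' : Pl N) (hP : reg P) (hP' : reg P')
    (hPP' : ∀ z ∈ BY A N y, resA A (val P z) = resA A (val P' z))
    (b : FN N) (hb : b ∈ BY A N y) (c : Kbar) (hc : c ∈ A) :
    ∏ W ∈ Place.fiberAlong ββ (beta_integral N ℓ) P,
      (resA A c - resA A (val (W.restrictAlong αα (alpha_integral N ℓ)) b)) ^
        W.ramificationIndexAlong ββ =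
    ∏ W ∈ Place.fiberAlong ββ (beta_integral N ℓ) P',
      (resA A c - resA A (val (W.restrictAlong αα (alpha_integral N ℓ)) b)) ^
        W.ramificationIndexAlong ββ := by
  have hB : ∀ P, reg P → ∀ z ∈ BY A N y, 0 ≤ P.ord z ∧ val P z ∈ A :=
    fun P hP z hz => mem_of_reg (hreg P hP) hz
  set Cc : FN N := algebraMap Kbar (FN N) c with hCc
  have hCcB : Cc ∈ BY A N y := algebraMap_mem_BY hc
  set x : FN N := Cc - b with hx
  have hxB : x ∈ BY A N y := sub_mem hCcB hb
  -- regularity and values of `α x` on the fibres of `β`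
  have hfib : ∀ P' : Pl N, reg P' → ∀ W ∈ Place.fiberAlong ββ (beta_integral N ℓ) P',
      0 ≤ W.ord (αα x) ∧ val W (αα x) ∈ A ∧
        resA A (val W (αα x)) =
          resA A c - resA A (val (W.restrictAlong αα (alpha_integral N ℓ)) b) := by
    intro P' hP' W hW
    have hW' : W.restrictAlong ββ (beta_integral N ℓ) = P' := Place.mem_fiberAlong.1 hW
    have hWα : reg (W.restrictAlong αα (alpha_integral N ℓ)) := by
      rw [hRegion, hW']; exact hP'
    obtain ⟨h1, h2⟩ := hB _ hWα x hxB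
    obtain ⟨h3, h4⟩ := hB _ hWα b hb
    obtain ⟨h5, -⟩ := hB _ hWα Cc hCcB
    have e_ord : 0 ≤ (W.restrictAlong αα (alpha_integral N ℓ)).ord x ↔ 0 ≤ W.ord (αα x) :=
      ord_restrictAlong_nonneg_iff αα (alpha_integral N ℓ) W x
    have e_val : val (W.restrictAlong αα (alpha_integral N ℓ)) x = val W (αα x) :=
      val_restrictAlong αα (alpha_integral N ℓ) W x
    rw [e_ord] at h1
    rw [e_val] at h2
    refine ⟨h1, h2, ?_⟩
    rw [← e_val, hx, val_sub h5 h3, hCc, val_algebraMap, resA_sub hc h4]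
  -- the norm
  set T : FN N := normAlong ββ (αα x) with hTdef
  have hnorm : ∀ P' : Pl N, reg P' → 0 ≤ P'.ord T := fun P' hP' =>
    (HeckePoly.valNorm_beta N ℓ P' (αα x) fun W hW => (hfib P' hP' W hW).1).1
  have hvalT : ∀ P' : Pl N, reg P' → val P' T =
      ∏ W ∈ Place.fiberAlong ββ (beta_integral N ℓ) P', val W (αα x) ^ W.ramificationIndexAlong ββ :=
    fun P' hP' => (HeckePoly.valNorm_beta N ℓ P' (αα x) fun W hW => (hfib P' hP' W hW).1).2
  have hTA : ∀ P' : Pl N, reg P' → val P' T ∈ A := by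
    intro P' hP'
    rw [hvalT P' hP']
    exact prod_mem fun W hW => pow_mem (hfib P' hP' W hW).2.1 _
  have hresT : ∀ P' : Pl N, reg P' → resA A (val P' T) =
      ∏ W ∈ Place.fiberAlong ββ (beta_integral N ℓ) P',
        (resA A c - resA A (val (W.restrictAlong αα (alpha_integral N ℓ)) b)) ^
          W.ramificationIndexAlong ββ := by
    intro P' hP'
    rw [hvalT P' hP', resA_prod _ _ fun W hW => pow_mem (hfib P' hP' W hW).2.1 _]
    refine Finset.prod_congr rfl fun W hW => ?_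
    rw [resA_pow (hfib P' hP' W hW).2.1, (hfib P' hP' W hW).2.2]
  rw [← hresT P hP, ← hresT P' hP']
  -- the `q`-expansion of `T`
  obtain ⟨Yx, hYx⟩ := hQ.1 x hxB
  have hYx' : Fermat.Agent.GAL.E.incl A Yx = (x : LaurentSeries Kbar) := hYx
  have hxm : Fermat.Agent.GAL.E.incl A Yx ∈ modularFunctionFieldBar N := by
    rw [hYx']; exact x.2
  obtain ⟨_, _, hH⟩ := Fermat.Agent.S44.F.Hecke.exists_T_red A ℓ
  obtain ⟨t, ht, -⟩ := hH N (Congr.heckeOpTT N ℓ hC) Yx hxm
  have hxe : (⟨Fermat.Agent.GAL.E.incl A Yx, hxm⟩ : FN N) = x := Subtype.ext hYx'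
  rw [hxe] at ht
  have hTt : HasIntExp A N T t := ht
  obtain ⟨z, hzB, hz⟩ := hr_clear A N hy hQ reg hreg hout T t hTt
    fun P' hP' => ⟨hnorm P' hP', hTA P' hP'⟩
  rw [← hz P hP, ← hz P' hP', hPP' z hzB]

theorem hr_out_fin (Q : Pl N) (hQ : ¬ InFin A N Q) (hQy : 0 ≤ Q.ord (jF N)) :
    ∃ a ∈ A, a * val Q (jF N) = 1 ∧ ∀ P, InFin A N P → a * val P (jF N) ∈ A.nonunits := by
  have h1 : val Q (jF N) ∉ A := fun h => hQ ⟨hQy, h⟩
  have h0 : val Q (jF N) ≠ 0 := fun h => h1 (h ▸ A.zero_mem)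
  have h2 : (val Q (jF N))⁻¹ ∈ A.nonunits := by
    rw [ValuationSubring.mem_nonunits_iff, map_inv₀]
    rw [← ValuationSubring.valuation_le_one_iff, not_le] at h1
    exact inv_lt_one_of_one_lt₀ h1
  exact ⟨_, A.nonunits_subset h2, inv_mul_cancel₀ h0, fun P hP => C0.mul_mem_nonunits h2 hP.2⟩

theorem hr_out_inf (Q : Pl N) (hQ : ¬ ¬ InFin A N Q) (hQy : 0 ≤ Q.ord (jF N)⁻¹) :
    ∃ a ∈ A, a * val Q (jF N)⁻¹ = 1 ∧
      ∀ P, ¬ InFin A N P → a * val P (jF N)⁻¹ ∈ A.nonunits := by
  have hQ' : InFin A N Q := not_not.1 hQ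
  have hj0 : jF N ≠ 0 := fun h => (Formal.transcendental_jF N) (h ▸ isAlgebraic_zero)
  have hord : Q.ord (jF N) = 0 := by
    rw [Place.ord_inv] at hQy
    have := hQ'.1
    omega
  refine ⟨val Q (jF N), hQ'.2, ?_, fun P hP => ?_⟩
  · rw [val_inv hord, mul_inv_cancel₀ (val_ne_zero_of_ord_eq_zero hj0 hord)]
  · rw [mul_comm]
    exact C0.mul_mem_nonunits (jF_inv_of_not_inFin hP).2 hQ'.2

theorem hr_fin (hQF : QAFin A N) (hJ : JInt (N * ℓ) ℓ (dvd_mul_left ℓ N)) (hC : ConjNorm N ℓ)
    (P P' : Pl N) (hP : InFin A N P) (hP' : InFin A N P') (h : red A N P = red A N P') :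
    ∑ W ∈ Place.fiberAlong ββ (beta_integral N ℓ) P,
      Finsupp.single (red A N (W.restrictAlong αα (alpha_integral N ℓ)))
        ((W.ramificationIndexAlong ββ : ℕ) : ℤ) =
    ∑ W ∈ Place.fiberAlong ββ (beta_integral N ℓ) P',
      Finsupp.single (red A N (W.restrictAlong αα (alpha_integral N ℓ)))
        ((W.ramificationIndexAlong ββ : ℕ) : ℤ) := by
  classical
  have := infinite_kA A
  have hW : ∀ (P : Pl N), InFin A N P → ∀ W ∈ Place.fiberAlong ββ (beta_integral N ℓ) P,
      InFin A N (W.restrictAlong αα (alpha_integral N ℓ)) := by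
    intro P hP W hW
    rw [inFin_alpha_iff_beta A N ℓ hJ W, Place.mem_fiberAlong.1 hW]
    exact hP
  let ev : Pl (N * ℓ) → (BFin A N →+* kA A) := fun W =>
    if h : InFin A N (W.restrictAlong αα (alpha_integral N ℓ)) then evFinHom h else evFinHom hP
  have hev : ∀ (P : Pl N) (hP : InFin A N P) W (h : W ∈ Place.fiberAlong ββ (beta_integral N ℓ) P),
      ev W = evFinHom (hW P hP W h) := fun P hP W h => dif_pos (hW P hP W h)
  have hconst : ∀ (Q : Pl N) (hQ : InFin A N Q) (a : A),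
      evFinHom hQ ⟨algebraMap Kbar (FN N) a, algebraMap_mem_BFin a.2⟩ = IsLocalRing.residue A a := by
    intro Q hQ a
    rw [evFinHom_apply, val_algebraMap, resA_coe]
  have hPP' : ∀ z ∈ BY A N (jF N), resA A (val P z) = resA A (val P' z) := by
    intro z hz
    rw [red_of_inFin hP, red_of_inFin hP'] at h
    exact congrFun (Sum.inl.inj h) ⟨z, hz⟩
  have key := hr_sep
    (κ := fun a : A => (⟨algebraMap Kbar (FN N) a, algebraMap_mem_BFin a.2⟩ : BFin A N))
    (ρ := IsLocalRing.residue A) IsLocalRing.residue_surjective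
    (Place.fiberAlong ββ (beta_integral N ℓ) P) ev (fun W => W.ramificationIndexAlong ββ)
    (Place.fiberAlong ββ (beta_integral N ℓ) P') ev (fun W => W.ramificationIndexAlong ββ)
    (fun W h a => by rw [hev P hP W h]; exact hconst _ _ a)
    (fun W h a => by rw [hev P' hP' W h]; exact hconst _ _ a)
    (by
      intro b c
      obtain ⟨c', hc', rfl⟩ := exists_mem_resA_eq A c
      have h1 := hr_poly A N ℓ (Formal.transcendental_jF N) hQF (InFin A N) (fun _ h => h)
        (hr_out_fin A N) (inFin_alpha_iff_beta A N ℓ hJ) hC P P' hP hP' hPP' b.1 b.2 c' hc'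
      refine Eq.trans (Finset.prod_congr rfl fun W h => ?_)
        (h1.trans (Finset.prod_congr rfl fun W h => ?_))
      · rw [hev P hP W h]
        rfl
      · rw [hev P' hP' W h]
        rfl)
    (J := fun e => (Sum.inl fun b => e b : X A N))
  refine Eq.trans (Finset.sum_congr rfl fun W h => ?_)
    (key.trans (Finset.sum_congr rfl fun W h => ?_))
  · rw [red_eq_inl (hW P hP W h), hev P hP W h]
  · rw [red_eq_inl (hW P' hP' W h), hev P' hP' W h]

theorem hr_inf (hQI : QAInf A N) (hJ : JInt (N * ℓ) ℓ (dvd_mul_left ℓ N)) (hC : ConjNorm N ℓ)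
    (P P' : Pl N) (hP : ¬ InFin A N P) (hP' : ¬ InFin A N P') (h : red A N P = red A N P') :
    ∑ W ∈ Place.fiberAlong ββ (beta_integral N ℓ) P,
      Finsupp.single (red A N (W.restrictAlong αα (alpha_integral N ℓ)))
        ((W.ramificationIndexAlong ββ : ℕ) : ℤ) =
    ∑ W ∈ Place.fiberAlong ββ (beta_integral N ℓ) P',
      Finsupp.single (red A N (W.restrictAlong αα (alpha_integral N ℓ)))
        ((W.ramificationIndexAlong ββ : ℕ) : ℤ) := by
  classical
  have := infinite_kA A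
  have hW : ∀ (P : Pl N), ¬ InFin A N P → ∀ W ∈ Place.fiberAlong ββ (beta_integral N ℓ) P,
      ¬ InFin A N (W.restrictAlong αα (alpha_integral N ℓ)) := by
    intro P hP W hW
    rw [inFin_alpha_iff_beta A N ℓ hJ W, Place.mem_fiberAlong.1 hW]
    exact hP
  let ev : Pl (N * ℓ) → (BInf A N →+* kA A) := fun W =>
    if h : ¬ InFin A N (W.restrictAlong αα (alpha_integral N ℓ)) then evInfHom h else evInfHom hP
  have hev : ∀ (P : Pl N) (hP : ¬ InFin A N P) W
      (h : W ∈ Place.fiberAlong ββ (beta_integral N ℓ) P),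
      ev W = evInfHom (hW P hP W h) := fun P hP W h => dif_pos (hW P hP W h)
  have hconst : ∀ (Q : Pl N) (hQ : ¬ InFin A N Q) (a : A),
      evInfHom hQ ⟨algebraMap Kbar (FN N) a, algebraMap_mem_BInf a.2⟩ = IsLocalRing.residue A a := by
    intro Q hQ a
    rw [evInfHom_apply, val_algebraMap, resA_coe]
  have hPP' : ∀ z ∈ BY A N (jF N)⁻¹, resA A (val P z) = resA A (val P' z) := by
    intro z hz
    rw [red_of_not_inFin hP, red_of_not_inFin hP'] at h
    exact congrFun (Sum.inr.inj h) ⟨z, hz⟩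
  have key := hr_sep
    (κ := fun a : A => (⟨algebraMap Kbar (FN N) a, algebraMap_mem_BInf a.2⟩ : BInf A N))
    (ρ := IsLocalRing.residue A) IsLocalRing.residue_surjective
    (Place.fiberAlong ββ (beta_integral N ℓ) P) ev (fun W => W.ramificationIndexAlong ββ)
    (Place.fiberAlong ββ (beta_integral N ℓ) P') ev (fun W => W.ramificationIndexAlong ββ)
    (fun W h a => by rw [hev P hP W h]; exact hconst _ _ a)
    (fun W h a => by rw [hev P' hP' W h]; exact hconst _ _ a)
    (by
      intro b c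
      obtain ⟨c', hc', rfl⟩ := exists_mem_resA_eq A c
      have h1 := hr_poly A N ℓ (FF.transcendental_inv (Formal.transcendental_jF N)) hQI
        (fun P => ¬ InFin A N P)
        (fun P hP => ⟨(jF_inv_of_not_inFin hP).1, A.nonunits_subset (jF_inv_of_not_inFin hP).2⟩)
        (hr_out_inf A N) (fun W => not_congr (inFin_alpha_iff_beta A N ℓ hJ W)) hC P P' hP hP' hPP'
        b.1 b.2 c' hc'
      refine Eq.trans (Finset.prod_congr rfl fun W h => ?_)
        (h1.trans (Finset.prod_congr rfl fun W h => ?_))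
      · rw [hev P hP W h]
        rfl
      · rw [hev P' hP' W h]
        rfl)
    (J := fun e => (Sum.inr fun b => e b : X A N))
  refine Eq.trans (Finset.sum_congr rfl fun W h => ?_)
    (key.trans (Finset.sum_congr rfl fun W h => ?_))
  · rw [red_eq_inr (hW P hP W h), hev P hP W h]
  · rw [red_eq_inr (hW P' hP' W h), hev P' hP' W h]

/-- **R1**: the reduction of `T_ℓ P` depends only on the reduction of `P`
(`A | q`, `q ∤ N`, `ℓ` a prime not dividing `N`). -/
theorem heckeRed (q : ℕ) (hq : q.Prime) (hA : A.LiesOverPrime q) (hqN : ¬ q ∣ N)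
    (hℓ : ℓ.Prime) (hℓN : ¬ ℓ ∣ N) (P P' : Pl N) (h : red A N P = red A N P') :
    redDiv A N (heckeDiv N ℓ (Finsupp.single P 1)) =
      redDiv A N (heckeDiv N ℓ (Finsupp.single P' 1)) := by
  haveI : Fact q.Prime := ⟨hq⟩
  obtain ⟨hQF, hQI⟩ := final_qa A N q hA hqN
  have hJ := jInt (N * ℓ) ℓ (dvd_mul_left ℓ N)
  have hC := conjNorm_of_prime N ℓ hℓ hℓN
  rw [heckeDiv_single N ℓ P 1, heckeDiv_single N ℓ P' 1, map_sum, map_sum]
  simp only [redDiv_single, one_mul]
  by_cases hP : InFin A N P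
  · have hP' : InFin A N P' := by
      by_contra hP'
      rw [red_of_inFin hP, red_of_not_inFin hP'] at h
      exact Sum.inl_ne_inr h
    exact hr_fin A N ℓ hQF hJ hC P P' hP hP' h
  · have hP' : ¬ InFin A N P' := by
      intro hP'
      rw [red_of_not_inFin hP, red_of_inFin hP'] at h
      exact Sum.inr_ne_inl h
    exact hr_inf A N ℓ hQI hJ hC P P' hP hP' h

/-- **R1**, in the form which is used (the hypotheses of `NodeCore`). -/
def NodeHeckeRed' : Prop :=
  ∀ (A : ValuationSubring Kbar) (M : ℕ) [NeZero M] (q : ℕ), q.Prime → A.LiesOverPrime q →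
    ¬ q ∣ M → ∀ (ℓ : ℕ) [NeZero ℓ], ℓ.Prime → ¬ ℓ ∣ M → ∀ P P' : Pl M,
    red A M P = red A M P' →
      redDiv A M (heckeDiv M ℓ (Finsupp.single P 1)) =
        redDiv A M (heckeDiv M ℓ (Finsupp.single P' 1))

theorem nodeHeckeRed' : NodeHeckeRed' :=
  fun A M _ q hq hA hqM ℓ _ hℓ hℓM P P' h => heckeRed A M ℓ q hq hA hqM hℓ hℓM P P' h

/-- **R2**, in the form which is used (the hypotheses of `NodeCore`). -/
def NodeKerStable' : Prop :=
  ∀ (A : ValuationSubring Kbar) (M : ℕ) [NeZero M] (q : ℕ), q.Prime → A.LiesOverPrime q →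
    ¬ q ∣ M → ∀ (S : Set ℕ) (ℓ : ℕ) (D : Divisor Kbar (FN M)),
    redDiv A M D = 0 → redDiv A M (opD M S ℓ D) = 0

theorem nodeKerStable' : NodeKerStable' := by
  intro A M _ q hq hA hqM S ℓ D hD
  classical
  by_cases hg : Good M S ℓ
  · haveI := hg.neZero
    have e : opD M S ℓ D = heckeDiv M ℓ D := by
      unfold opD
      rw [dif_pos hg]
      rfl
    rw [e]
    set Θ : Divisor Kbar (FN M) →+ (X A M →₀ ℤ) := (redDiv A M).comp (heckeDiv M ℓ) with hΘ
    let θ : X A M → (X A M →₀ ℤ) := fun x =>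
      if h : ∃ P, red A M P = x then Θ (Finsupp.single h.choose 1) else 0
    have hθ : ∀ P, Θ (Finsupp.single P 1) = θ (red A M P) := by
      intro P
      have h' : ∃ P', red A M P' = red A M P := ⟨P, rfl⟩
      simp only [θ, dif_pos h']
      exact heckeRed A M ℓ q hq hA hqM hg.1 hg.2.1 _ _ h'.choose_spec.symm
    let Ψ : (X A M →₀ ℤ) →+ (X A M →₀ ℤ) :=
      Finsupp.liftAddHom fun x => (zmultiplesHom _ (θ x))
    have key : Θ = Ψ.comp (redDiv A M) := by
      apply Finsupp.addHom_ext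
      intro P n
      show Θ (Finsupp.single P n) = Ψ (redDiv A M (Finsupp.single P n))
      rw [redDiv_single]
      simp only [Ψ, Finsupp.liftAddHom_apply_single, zmultiplesHom_apply]
      rw [← hθ, ← map_zsmul, Finsupp.smul_single, smul_eq_mul, mul_one]
    show Θ D = 0
    rw [key, AddMonoidHom.comp_apply, hD, map_zero]
  · have e : opD M S ℓ = 0 := by
      unfold opD
      rw [dif_neg hg]
    rw [e]
    simp

end Fermat.Agent.S43.G1

end
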