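/-
Row 37 (S43), block G1 (helper225): `NodeRedConst` (restatement of S37), and
`NodeKerStable ⇐ NodeHeckeRed`.
-/
import Fermat.Agent.S43.G1.Ops

set_option autoImplicit false
set_option linter.style.haveILetI false
set_option linter.unusedSectionVars false

noncomputable section

namespace Fermat.Agent.S43.G1

open AlgebraicCurve ModularCurve Fermat.Agent.S24 Fermat.Agent.GAL
open Fermat.Agent.S37 (red redDiv X Pl GoodBase redDiv_apply redDiv_single)
open Fermat.Agent.S37.HeckeInputs (heckeDiv)
open Fermat.Agent.S18.Glue (divOf)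

/-- `RedConst` of S37 for good bases -/
theorem redConst (A : ValuationSubring Kbar) (M : ℕ) [NeZero M] (q : ℕ) (hq : q.Prime)
    (hA : A.LiesOverPrime q) (hqM : ¬ q ∣ M) (hG : GoodBase M q) :
    Fermat.Agent.S37.RedConst A M := by
  haveI : Fact q.Prime := ⟨hq⟩
  obtain ⟨hQF, hQI⟩ := Fermat.Agent.S37.final_qa A M q hA hqM
  exact Fermat.Agent.S37.redConst_of_lf A M hQF hQI
    (Fermat.Agent.S37.tubeStmt A M (jF M) (Formal.transcendental_jF M)
      (Fermat.Agent.S37.final_transc_j A M) hQF (Fermat.Agent.S37.final_regInt M))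
    (Fermat.Agent.S37.tubeStmt A M (jF M)⁻¹ (FF.transcendental_inv (Formal.transcendental_jF M))
      (Fermat.Agent.S37.final_transc_jinv A M) hQI (Fermat.Agent.S37.final_regInt M))
    (Fermat.Agent.S37.Export.lf A M q hA hqM hG)

theorem nodeRedConst : NodeRedConst := by
  intro A M _ q hq hA hqM hG g hg hred
  obtain ⟨c, P, Q, hP, hQ, hc, hPQ, hQ0, hf⟩ :=
    redConst A M q hq hA hqM hG g hg (divOf Kbar g) (fun _ => rfl) hred
  exact ⟨c, P, Q, hP, hQ, hc, by rw [show E.red A P = E.red A Q from hPQ]; exact hQ0, hQ0, hf,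
    by rw [one_mul]; exact hPQ.symm⟩

theorem nodeKerStable_of (h : NodeHeckeRed) : NodeKerStable := by
  intro A M _ S ℓ D hD
  classical
  by_cases hg : Good M S ℓ
  · haveI := hg.neZero
    rw [opD_good M S hg]
    set Θ : Divisor Kbar (FN M) →+ (X A M →₀ ℤ) := (redDiv A M).comp (heckeDiv M ℓ) with hΘ
    let θ : X A M → (X A M →₀ ℤ) := fun x =>
      if h : ∃ P, red A M P = x then Θ (Finsupp.single h.choose 1) else 0
    have hθ : ∀ P, Θ (Finsupp.single P 1) = θ (red A M P) := by
      intro P
      have h' : ∃ P', red A M P' = red A M P := ⟨P, rfl⟩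
      simp only [θ, dif_pos h']
      exact h A M ℓ _ _ h'.choose_spec.symm
    let Ψ : (X A M →₀ ℤ) →+ (X A M →₀ ℤ) :=
      Finsupp.liftAddHom fun x => (zmultiplesHom _ (θ x))
    have key : Θ = Ψ.comp (redDiv A M) := by
      apply Finsupp.addHom_ext
      intro P n
      show Θ (Finsupp.single P n) = Ψ (redDiv A M (Finsupp.single P n))
      rw [redDiv_single]
      simp only [Ψ, Finsupp.liftAddHom_apply_single, zmultiplesHom_apply]
      rw [← hθ, ← map_zsmul, Finsupp.smul_single, smul_eq_mul, mul_one]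
    show Θ D = 0
    rw [key, AddMonoidHom.comp_apply, hD, map_zero]
  · rw [opD_bad M S hg]
    simp

end Fermat.Agent.S43.G1

end
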