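/-
Row 37 (S43), block G1 (helper225): the unconditional deliverables.

* `nodeForm  : NodeForm`   tube formula `∑_{P' ↦ red P} ord_{P'} u = ord_v ū`
* `nodeCore1 : NodeCore1`  `t ∈ HA` killing the cusp forms of level `M`, `ū` with `n ∣` all orders
                           `⇒ t · u = fⁿ · (1 mod 𝔪_A)`
* `nodeCore  : NodeCore`   the same with `t * t`
-/
import Fermat.Agent.S43.G1.Core
import Fermat.Agent.S43.G1.Red
import Fermat.Agent.S43.G1.HeckeRed
import Fermat.Agent.S43.G1.Form.Main
import Fermat.Agent.S43.G1.Form.ZeroLift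
import Fermat.Agent.S43.G1.Form.AbsPlace
import Fermat.Agent.S43.G1.Form.Ring

set_option autoImplicit false

namespace Fermat.Agent.S43.G1

theorem nodeForm : NodeForm := Form.nodeForm_of Form.nodeZeroLift Form.nodeAbsPlace Form.nodeRing

theorem nodeCore1 : NodeCore1 := core1_of' nodeForm nodeKerStable' nodeRedConst

theorem nodeCore : NodeCore := core_of_core1 nodeCore1

end Fermat.Agent.S43.G1
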